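/-
GAL, node GB (genus bridge, architect helper261).  TASK GB-5.
A quotient of two functions with `t`-expansions is bounded at `i∞` if the orders allow it.

PROOF.  `k := t.order`.  `b₁ := 𝕢^(-k) * b` has the expansion `single (-k) 1 * t` (`HasTExp.single`, `HasTExp.mul`)
without polar part and with constant coefficient `t.coeff k ≠ 0`, so it tends to a nonzero limit
(`HasTExp.tendsto`).  `a₁ := 𝕢^(-k) * a` has the expansion `single (-k) 1 * s`, without polar part
(if `s = 0` trivially, otherwise by `hord`), so it is bounded (`HasTExp.isBoundedAtImInfty`).  Eventually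
`b₁ ≠ 0` and `W = a₁ / b₁`.  See the proof of `HasTExp.series_eq_zero` in S24/B/TExpBasic.lean.
-/
import Fermat.Agent.S24.B.TExpBasic

set_option autoImplicit false

namespace Fermat.Agent.GAL.Genus

open UpperHalfPlane Filter Fermat.Agent.S24

/-- the coefficients of `single (-k) 1 * s`. -/
theorem coeff_single_neg_mul (s : LaurentSeries Kbar) (k n : ℤ) :
    ((HahnSeries.single (-k) (1 : Kbar) : LaurentSeries Kbar) * s).coeff n = s.coeff (n + k) := by
  rw [HahnSeries.coeff_single_mul, one_mul, sub_neg_eq_add]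

/-- after division by `𝕢 ^ order`, a nonzero function with a `t`-expansion has a nonzero limit. -/
theorem tendsto_shift_of_hasTExp {N : ℕ} [NeZero N] {b : ℍ → ℂ}
    {t : LaurentSeries Kbar} (hb : HasTExp N b t) :
    Tendsto ((fun τ : ℍ => iota (1 : Kbar) * Function.Periodic.qParam N τ ^ (-t.order)) * b)
      atImInfty (nhds (iota (t.coeff t.order))) := by
  have h1 := (HasTExp.single (N := N) (-t.order) 1).mul hb
  have h2 := h1.tendsto (by
    intro n hn
    rw [coeff_single_neg_mul]
    exact HahnSeries.coeff_eq_zero_of_lt_order (by omega))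
  rwa [coeff_single_neg_mul, zero_add] at h2

theorem iota_coeff_order_ne_zero {t : LaurentSeries Kbar} (ht : t ≠ 0) :
    iota (t.coeff t.order) ≠ 0 := by
  intro h3
  exact ht (HahnSeries.coeff_order_eq_zero.mp (iota_injective (by rw [h3, map_zero])))

theorem isBoundedAtImInfty_of_hasTExp {N : ℕ} [NeZero N] {a b W : ℍ → ℂ}
    {s t : LaurentSeries Kbar} (ha : HasTExp N a s) (hb : HasTExp N b t) (ht : t ≠ 0)
    (hord : s ≠ 0 → t.order ≤ s.order) (hW : ∀ᶠ τ in atImInfty, b τ * W τ = a τ) :
    IsBoundedAtImInfty W := by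
  have hb₁ := tendsto_shift_of_hasTExp hb
  have hB := iota_coeff_order_ne_zero ht
  have h1 := (HasTExp.single (N := N) (-t.order) 1).mul ha
  have ha₁ := h1.tendsto (by
    intro n hn
    rw [coeff_single_neg_mul]
    by_cases hs : s = 0
    · rw [hs, HahnSeries.coeff_zero]
    · exact HahnSeries.coeff_eq_zero_of_lt_order (by have := hord hs; omega))
  have hlim := ha₁.div hb₁ hB
  have hne := hb₁.eventually_ne hB
  refine (hlim.congr' ?_).isBigO_one ℝ
  filter_upwards [hne, hW] with τ h1 h2
  simp only [Pi.div_apply, Pi.mul_apply] at h1 ⊢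
  rw [← h2, ← mul_assoc, mul_div_cancel_left₀ _ h1]

/-- a nonzero function with a `t`-expansion does not vanish near `i∞`. -/
theorem eventually_ne_zero_of_hasTExp {N : ℕ} [NeZero N] {b : ℍ → ℂ}
    {t : LaurentSeries Kbar} (hb : HasTExp N b t) (ht : t ≠ 0) :
    ∀ᶠ τ in atImInfty, b τ ≠ 0 := by
  have hne := (tendsto_shift_of_hasTExp hb).eventually_ne (iota_coeff_order_ne_zero ht)
  filter_upwards [hne] with τ h1 h0
  simp only [Pi.mul_apply] at h1
  exact h1 (by rw [h0, mul_zero])

end Fermat.Agent.GAL.Genus
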