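/-
GAL, node GB (genus bridge, architect helper261).  TASK GB-8.
The Kummer model `W N n` (block E) is the `n`-torsion of `Pic0`, hence has `n ^ (2 genusFF)` elements (S27).

PROOF.  `K = Kbar`, `F = FN N`, `IsFF1 K F` (`S24.Export.isFF1 N`), `NonConst` (`S24.Formal.transcendental_jF N`).
For `u ∈ kum N n` let `D_u : Divisor K F`, `D_u v = v.ord u / n` (finite support: `FF.finite_ord_ne_zero`).
`n * degree D_u = ∑ v.ord u = 0` (`FF.sum_ord_eq_zero`, `FF.deg_eq_one`), so `D_u ∈ degZero`.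
`φ : Additive (kum N n) →+ Pic0 K F`, `u ↦ Pic0.mk ⟨D_u, _⟩` is additive (`Place.ord_mul`, divisibility).
* `n • φ u = 0`: `n • D_u` is the divisor of `u`, principal.  So `φ` lands in `Pic0.torsion K F n` (`Pic0.mem_torsion`).
* kernel: `D_u` principal `= div w` ⇒ `u / w ^ n` has all orders `0` ⇒ it is a constant `c`
  (`S27.eq_algebraMap_of_forall_ord_nonneg`), `c = c' ^ n` (`IsAlgClosed.exists_pow_nat_eq`), so `u ∈ pows N n`.
  Conversely `φ (w ^ n) = [div w] = 0`.
* onto: `x = Pic0.mk D` with `n • D = div u`; then `u ∈ kum N n` and `D_u = D`.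
Conclude with `QuotientGroup`/`QuotientAddGroup` first isomorphism theorem, or directly `Nat.card_congr (Equiv.ofBijective ..)`.
`card_W`: `S27.card_torsion_general`.
-/
import Fermat.Agent.GAL.E.Defs
import Fermat.Agent.S27.General
import Fermat.Agent.S24.Export.Ramification

set_option autoImplicit false

namespace Fermat.Agent.GAL.Genus

open AlgebraicCurve Fermat.Agent.S24

section General

variable {K F : Type*} [Field K] [Field F] [Algebra K F] [IsAlgClosed K] [CharZero K] [FF.IsFF1 K F]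

/-- the divisor `(div u) / n` -/
noncomputable def divN (K : Type*) {F : Type*} [Field K] [Field F] [Algebra K F] [IsAlgClosed K]
    [CharZero K] [FF.IsFF1 K F] (n : ℕ) (u : F) : Divisor K F :=
  Finsupp.ofSupportFinite (fun v : Place K F => v.ord u / (n : ℤ))
    ((FF.finite_ord_ne_zero (K := K) u).subset fun v hv h0 => hv (by
      show v.ord u / (n : ℤ) = 0
      rw [h0, Int.zero_ediv]))

theorem divN_apply (n : ℕ) (u : F) (v : Place K F) : divN K n u v = v.ord u / (n : ℤ) := rfl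

theorem mul_divN_apply {n : ℕ} {u : F} (hu : ∀ v : Place K F, (n : ℤ) ∣ v.ord u) (v : Place K F) :
    (n : ℤ) * divN K n u v = v.ord u := by
  rw [divN_apply, Int.mul_ediv_cancel' (hu v)]

theorem degree_divN {n : ℕ} (hn : 0 < n) {u : F} (hu0 : u ≠ 0)
    (hu : ∀ v : Place K F, (n : ℤ) ∣ v.ord u) : Divisor.degree (divN K n u) = 0 := by
  have h1 : S27.IsDivOf ((n : ℤ) • divN K n u) u :=
    ⟨hu0, fun v => by rw [Finsupp.smul_apply, smul_eq_mul, mul_divN_apply hu]⟩
  have h2 := h1.degree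
  rw [map_zsmul, smul_eq_mul] at h2
  have hn' : (n : ℤ) ≠ 0 := by exact_mod_cast hn.ne'
  exact (mul_eq_zero.1 h2).resolve_left hn'

theorem divN_mul {n : ℕ} {u w : F} (hu0 : u ≠ 0) (hw0 : w ≠ 0)
    (hu : ∀ v : Place K F, (n : ℤ) ∣ v.ord u) :
    divN K n (u * w) = divN K n u + divN K n w := by
  ext v
  rw [Finsupp.add_apply, divN_apply, divN_apply, divN_apply, v.ord_mul hu0 hw0,
    Int.add_ediv_of_dvd_left (hu v)]

/-- `(div u) / n` is principal iff `u` is an `n`-th power -/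
theorem divN_mem_principal_iff {n : ℕ} (hn : 0 < n) {u : F} (hu0 : u ≠ 0)
    (hu : ∀ v : Place K F, (n : ℤ) ∣ v.ord u) :
    divN K n u ∈ Divisor.principal (K := K) (F := F) ↔ ∃ w : F, u = w ^ n := by
  have hn' : (n : ℤ) ≠ 0 := by exact_mod_cast hn.ne'
  constructor
  · rintro ⟨w, hw0, hw⟩
    have h1 : ∀ v : Place K F, 0 ≤ v.ord (u / w ^ n) := by
      intro v
      rw [div_eq_mul_inv, v.ord_mul hu0 (inv_ne_zero (pow_ne_zero n hw0)), v.ord_inv, FF.ord_pow,
        ← hw v, mul_divN_apply hu, add_neg_cancel]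
    obtain ⟨c, hc⟩ := S27.eq_algebraMap_of_forall_ord_nonneg (K := K) _ h1
    obtain ⟨c', hc'⟩ := IsAlgClosed.exists_pow_nat_eq c hn
    refine ⟨algebraMap K F c' * w, ?_⟩
    rw [mul_pow, ← map_pow, hc', ← hc, div_mul_cancel₀ _ (pow_ne_zero n hw0)]
  · rintro ⟨w, rfl⟩
    have hw0 : w ≠ 0 := by
      rintro rfl
      exact hu0 (zero_pow hn.ne')
    refine ⟨w, hw0, fun v => ?_⟩
    rw [divN_apply, FF.ord_pow, Int.mul_ediv_cancel_left _ hn']

end General

/-- the Kummer map on units -/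
noncomputable def kumDiv (N n : ℕ) [NeZero N] (hn : 0 < n) (u : E.kum N n) :
    Divisor.degZero (K := Kbar) (F := FN N) :=
  haveI := Export.isFF1 N
  ⟨divN Kbar n ((u : (FN N)ˣ) : FN N), degree_divN hn (u : (FN N)ˣ).ne_zero u.2⟩

theorem kumDiv_mul (N n : ℕ) [NeZero N] (hn : 0 < n) (u w : E.kum N n) :
    kumDiv N n hn (u * w) = kumDiv N n hn u + kumDiv N n hn w := by
  have := Export.isFF1 N
  apply Subtype.ext
  exact divN_mul (u : (FN N)ˣ).ne_zero (w : (FN N)ˣ).ne_zero u.2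

theorem mk_kumDiv_mem_torsion (N n : ℕ) [NeZero N] (hn : 0 < n) (u : E.kum N n) :
    Pic0.mk (kumDiv N n hn u) ∈ Pic0.torsion Kbar (FN N) n := by
  have := Export.isFF1 N
  rw [Pic0.mem_torsion]
  show ((QuotientAddGroup.mk ((n : ℤ) • kumDiv N n hn u)) : Pic0 Kbar (FN N)) = 0
  rw [QuotientAddGroup.eq_zero_iff, AddSubgroup.mem_addSubgroupOf]
  refine ⟨((u : (FN N)ˣ) : FN N), (u : (FN N)ˣ).ne_zero, fun v => ?_⟩
  show ((n : ℤ) • divN Kbar n ((u : (FN N)ˣ) : FN N)) v = _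
  rw [Finsupp.smul_apply, smul_eq_mul, mul_divN_apply u.2]

/-- the Kummer map as a homomorphism -/
noncomputable def kumHom (N n : ℕ) [NeZero N] (hn : 0 < n) :
    E.kum N n →* Multiplicative (Pic0.torsion Kbar (FN N) n) where
  toFun u := Multiplicative.ofAdd ⟨Pic0.mk (kumDiv N n hn u), mk_kumDiv_mem_torsion N n hn u⟩
  map_one' := by
    have h := kumDiv_mul N n hn 1 1
    rw [mul_one] at h
    have h0 : kumDiv N n hn 1 = 0 := by simpa using h
    rw [← ofAdd_zero]
    refine congrArg Multiplicative.ofAdd (Subtype.ext ?_)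
    show Pic0.mk (kumDiv N n hn 1) = 0
    rw [h0, Pic0.mk_zero]
  map_mul' u w := by
    rw [← ofAdd_add]
    refine congrArg Multiplicative.ofAdd (Subtype.ext ?_)
    show Pic0.mk (kumDiv N n hn (u * w)) = Pic0.mk (kumDiv N n hn u) + Pic0.mk (kumDiv N n hn w)
    rw [kumDiv_mul, Pic0.mk_add]

theorem ker_kumHom (N n : ℕ) [NeZero N] (hn : 0 < n) :
    (kumHom N n hn).ker = (E.pows N n).subgroupOf (E.kum N n) := by
  have := Export.isFF1 N
  ext u
  rw [MonoidHom.mem_ker, Subgroup.mem_subgroupOf]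
  have h1 : kumHom N n hn u = 1 ↔ Pic0.mk (kumDiv N n hn u) = 0 := by
    constructor
    · intro h
      exact congrArg (fun x : Multiplicative (Pic0.torsion Kbar (FN N) n) =>
        ((Multiplicative.toAdd x : Pic0.torsion Kbar (FN N) n) : Pic0 Kbar (FN N))) h
    · intro h
      rw [← ofAdd_zero]
      exact congrArg Multiplicative.ofAdd (Subtype.ext h)
  rw [h1, Pic0.mk, QuotientAddGroup.eq_zero_iff, AddSubgroup.mem_addSubgroupOf]
  show divN Kbar n ((u : (FN N)ˣ) : FN N) ∈ _ ↔ _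
  rw [divN_mem_principal_iff hn (u : (FN N)ˣ).ne_zero u.2]
  constructor
  · rintro ⟨w, hw⟩
    exact E.mem_pows_of_eq_pow hw
  · rintro ⟨w, hw⟩
    refine ⟨(w : FN N), ?_⟩
    rw [← hw]
    simp

theorem kumHom_surjective (N n : ℕ) [NeZero N] (hn : 0 < n) :
    Function.Surjective (kumHom N n hn) := by
  have := Export.isFF1 N
  have hn' : (n : ℤ) ≠ 0 := by exact_mod_cast hn.ne'
  intro x
  obtain ⟨⟨x, hx⟩, rfl⟩ := Multiplicative.ofAdd.surjective x
  obtain ⟨D, rfl⟩ := Pic0.mk_surjective x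
  rw [Pic0.mem_torsion] at hx
  have hx' : ((QuotientAddGroup.mk ((n : ℤ) • D)) : Pic0 Kbar (FN N)) = 0 := hx
  rw [QuotientAddGroup.eq_zero_iff, AddSubgroup.mem_addSubgroupOf] at hx'
  obtain ⟨f, hf0, hf⟩ := hx'
  have hf' : ∀ v : Place Kbar (FN N), (n : ℤ) * (D : Divisor Kbar (FN N)) v = v.ord f := by
    intro v
    rw [← hf v]
    rfl
  have hkum : Units.mk0 f hf0 ∈ E.kum N n := fun v => ⟨_, (hf' v).symm⟩
  refine ⟨⟨Units.mk0 f hf0, hkum⟩, ?_⟩
  refine congrArg Multiplicative.ofAdd (Subtype.ext ?_)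
  show Pic0.mk (kumDiv N n hn ⟨Units.mk0 f hf0, hkum⟩) = Pic0.mk D
  congr 1
  apply Subtype.ext
  ext v
  show divN Kbar n f v = _
  rw [divN_apply, ← hf' v, Int.mul_ediv_cancel_left _ hn']

theorem nonempty_W_equiv_torsion (N n : ℕ) [NeZero N] (hn : 0 < n) :
    Nonempty (E.W N n ≃+ Pic0.torsion Kbar (FN N) n) := by
  have e1 : E.Wm N n ≃* (E.kum N n ⧸ (kumHom N n hn).ker) :=
    QuotientGroup.quotientMulEquivOfEq (ker_kumHom N n hn).symm
  have e2 := QuotientGroup.quotientKerEquivOfSurjective (kumHom N n hn) (kumHom_surjective N n hn)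
  exact ⟨MulEquiv.toAdditiveLeft (e1.trans e2)⟩

theorem card_W (N n : ℕ) [NeZero N] (hn : 0 < n) :
    Nat.card (E.W N n) = n ^ (2 * genusFF Kbar (FN N)) := by
  have := Export.isFF1 N
  have : S27.NonConst Kbar (FN N) := ⟨⟨_, Formal.transcendental_jF N⟩⟩
  obtain ⟨e⟩ := nonempty_W_equiv_torsion N n hn
  rw [Nat.card_congr e.toEquiv, S27.card_torsion_general Kbar (FN N) n hn]

end Fermat.Agent.GAL.Genus
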