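/-
GAL, node GB (genus bridge, architect helper261).  TASK GB-2.
The pole divisor `(x)_∞` of a transcendental element of a function field: degree, integrality of the
elements of `L((x)_∞)`, Riemann's inequality.

PROOFS.  `poleDiv`: finite support by `FF.finite_ord_ne_zero`.  `degree_poleDiv`:
`FF.exists_finset_ord_neg` + `FF.deg_eq_one` (`Divisor.degree D = ∑ v ∈ D.support, D v * v.deg`).
`isIntegral_of_mem_L`: `S27.H.LSpace.isIntegral_of_forall_ord` + `mem_riemannRochSpace_iff`.
`isIntegral_mul_inv_of_mem_L`: the same lemma applied to `x⁻¹` (`FF.transcendental_inv`):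
if `0 ≤ w.ord x⁻¹` then `w.ord x ≤ 0`, `poleDiv x w = - w.ord x`, so `0 ≤ w.ord (u * x⁻¹)`.
`le_genusFF`: `S27.finrank_riemannRochSpace_sub_finrank_H1`.
-/
import Fermat.Agent.S27.RiemannI
import Fermat.Agent.S27.H.LSpace

set_option autoImplicit false

noncomputable section

namespace Fermat.Agent.GAL.Genus

open AlgebraicCurve Fermat.Agent.S24.FF Fermat.Agent.S27 IntermediateField

variable {K F : Type*} [Field K] [Field F] [Algebra K F] [IsAlgClosed K] [CharZero K] [IsFF1 K F]

variable (K) in
/-- The pole divisor of `x`. -/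
def poleDiv (x : F) : Divisor K F :=
  Finsupp.ofSupportFinite (fun v : Place K F => max 0 (-(v.ord x))) (by
    refine (finite_ord_ne_zero (K := K) x).subset ?_
    intro v hv
    simp only [Function.mem_support, ne_eq] at hv
    show v.ord x ≠ 0
    intro h
    apply hv
    simp [h])

theorem poleDiv_apply (x : F) (v : Place K F) : poleDiv K x v = max 0 (-(v.ord x)) := rfl

omit [CharZero K] in
theorem degree_eq_finsum' (D : Divisor K F) : Divisor.degree D = ∑ᶠ v : Place K F, D v := by
  rw [finsum_eq_sum_of_support_subset (s := D.support) _ (by intro v hv; simpa using hv)]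
  simp only [Divisor.degree, Finsupp.liftAddHom_apply, Finsupp.sum, AddMonoidHom.coe_mulRight,
    deg_eq_one, Nat.cast_one, mul_one]

theorem degree_poleDiv {x : F} (hx : Transcendental K x) :
    Divisor.degree (poleDiv K x) = (Module.finrank K⟮x⟯ F : ℤ) := by
  obtain ⟨s, hs, hsum⟩ := exists_finset_ord_neg x hx
  rw [degree_eq_finsum', finsum_eq_sum_of_support_subset (s := s)]
  · have h : ∑ v ∈ s, poleDiv K x v = ∑ v ∈ s, -(v.ord x) := by
      refine Finset.sum_congr rfl fun v hv => ?_
      have := (hs v).mp hv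
      rw [poleDiv_apply]
      omega
    rw [h, Finset.sum_neg_distrib, hsum, neg_neg]
  · intro v hv
    rw [Function.mem_support, poleDiv_apply] at hv
    rw [Finset.mem_coe, hs]
    omega

theorem isIntegral_of_mem_L {x u : F} (hx : Transcendental K x)
    (hu : u ∈ riemannRochSpace (poleDiv K x)) : IsIntegral (Algebra.adjoin K {x}) u := by
  apply H.LSpace.isIntegral_of_forall_ord hx
  intro w hw
  rcases mem_riemannRochSpace_iff.mp hu w with h | h
  · rw [h]; simp
  · rw [poleDiv_apply] at h
    omega

theorem isIntegral_mul_inv_of_mem_L {x u : F} (hx : Transcendental K x)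
    (hu : u ∈ riemannRochSpace (poleDiv K x)) :
    IsIntegral (Algebra.adjoin K {x⁻¹}) (u * x⁻¹) := by
  apply H.LSpace.isIntegral_of_forall_ord (transcendental_inv hx)
  intro w hw
  have hx0 : x ≠ 0 := by
    rintro rfl
    exact hx (by simpa using isAlgebraic_zero (R := K) (A := F))
  rcases mem_riemannRochSpace_iff.mp hu w with h | h
  · rw [h]; simp
  · by_cases hu0 : u = 0
    · rw [hu0]; simp
    rw [poleDiv_apply] at h
    rw [w.ord_inv] at hw
    rw [w.ord_mul hu0 (inv_ne_zero hx0), w.ord_inv]
    omega

/-- Riemann's inequality for the pole divisor. -/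
theorem le_genusFF {x : F} (hx : Transcendental K x) :
    (Module.finrank K⟮x⟯ F : ℤ) + 1 - Module.finrank K (riemannRochSpace (poleDiv K x))
      ≤ genusFF K F := by
  have : NonConst K F := ⟨⟨x, hx⟩⟩
  have h := finrank_riemannRochSpace_sub_finrank_H1 (poleDiv K x)
  rw [degree_poleDiv hx] at h
  have h0 : (0 : ℤ) ≤ Module.finrank K (H1 (poleDiv K x)) := Int.natCast_nonneg _
  omega

end Fermat.Agent.GAL.Genus

end
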